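import Fermat.Agent.S56.Frob.Split

/-!
# S56, package FROB, file B: Frobenius elements in an abelian tower `L/F/K`

* `fd_isUnramifiedIn_tower` : `v` unramified in `L` ⟹ unramified in `F`;
* `fd_frobAt_restrict`      : `Frob_v(F/K) = Frob_v(L/K)|_F` (abelian, `v` unramified in `L`);
* `fd_frobAt_fixedField_eq_one_iff` : for `F = L^H`: `Frob_v(F/K) = 1 ↔ Frob_v(L/K) ∈ H`;
* `fd_finrank_fixedField` : `[L^H : K] = [G : H]`.
-/

set_option autoImplicit false

namespace Fermat.Agent.S56

open NumberField IsDedekindDomain Fermat.Agent.S14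

section tower

variable (K F L : Type) [Field K] [NumberField K] [Field F] [NumberField F] [Field L]
  [NumberField L] [Algebra K F] [Algebra F L] [Algebra K L] [IsScalarTower K F L]

/-- a place of `K` unramified in `L` is unramified in the intermediate field `F` -/
theorem fd_isUnramifiedIn_tower (v : HeightOneSpectrum (𝓞 K)) (hv : IsUnramifiedIn K L v) :
    IsUnramifiedIn K F v := by
  intro P' hP' hlies
  obtain ⟨⟨P, hP, hPlies⟩⟩ := (inferInstance : Nonempty (P'.primesOver (𝓞 L)))
  have h1 : P.LiesOver v.asIdeal := Ideal.LiesOver.trans P P' v.asIdeal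
  have h2 : Algebra.IsUnramifiedAt (𝓞 K) P := hv P h1
  exact Algebra.IsUnramifiedAt.of_liesOver (𝓞 K) P' P

variable [IsGalois K L] [IsGalois K F]

omit [NumberField K] [NumberField F] [NumberField L] in
theorem fd_comm_of_tower (hcomm : ∀ a b : L ≃ₐ[K] L, a * b = b * a) (a b : F ≃ₐ[K] F) :
    a * b = b * a := by
  obtain ⟨a', rfl⟩ := AlgEquiv.restrictNormalHom_surjective (F := K) (K₁ := F) L a
  obtain ⟨b', rfl⟩ := AlgEquiv.restrictNormalHom_surjective (F := K) (K₁ := F) L b
  rw [← map_mul, ← map_mul, hcomm]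

/-- the restriction of a Frobenius element is a Frobenius element -/
theorem fd_isArithFrobAt_restrict (P : Ideal (𝓞 L)) {σ : L ≃ₐ[K] L}
    (hσ : IsArithFrobAt (𝓞 K) σ P) :
    IsArithFrobAt (𝓞 K) (AlgEquiv.restrictNormalHom F σ) (P.under (𝓞 F)) := by
  intro x
  have h := hσ (algebraMap (𝓞 F) (𝓞 L) x)
  rw [Ideal.under_under]
  rw [Ideal.mem_comap, map_sub, map_pow]
  convert h using 2
  apply RingOfIntegers.ext
  show algebraMap F L ((AlgEquiv.restrictNormalHom F σ) (x : F)) = σ (algebraMap F L (x : F))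
  exact AlgEquiv.restrictNormal_commutes σ F (x : F)

/-- **(B)** the Frobenius of `F/K` is the restriction of the Frobenius of `L/K` -/
theorem fd_frobAt_restrict (hcomm : ∀ a b : L ≃ₐ[K] L, a * b = b * a)
    (v : HeightOneSpectrum (𝓞 K)) (hv : IsUnramifiedIn K L v) :
    AlgEquiv.restrictNormalHom F (frobAt K L v) = frobAt K F v := by
  have hP : ((primeAbove K L v).under (𝓞 F)).LiesOver v.asIdeal := by
    constructor
    rw [Ideal.under_under]
    exact (primeAbove_liesOver K L v).over
  exact frobAt_eq_of_isArithFrobAt K F (fd_comm_of_tower K F L hcomm) v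
    (fd_isUnramifiedIn_tower K F L v hv) ((primeAbove K L v).under (𝓞 F)) hP _
    (fd_isArithFrobAt_restrict K F L _ (isArithFrobAt_frobAt K L v))

end tower

section fixed

variable (K L : Type) [Field K] [NumberField K] [Field L] [NumberField L] [Algebra K L]
  [IsGalois K L]

omit [NumberField K] [NumberField L] [IsGalois K L] in
theorem fd_normal_of_comm (hcomm : ∀ a b : L ≃ₐ[K] L, a * b = b * a)
    (H : Subgroup (L ≃ₐ[K] L)) : H.Normal :=
  ⟨fun n hn g => by rwa [hcomm g n, mul_inv_cancel_right]⟩

/-- `[L^H : K] = [G : H]` -/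
theorem fd_finrank_fixedField (H : Subgroup (L ≃ₐ[K] L)) :
    Module.finrank K (IntermediateField.fixedField H) = H.index := by
  have h1 := IntermediateField.finrank_fixedField_eq_card H
  have h2 := IsGalois.card_aut_eq_finrank K L
  have h3 := Module.finrank_mul_finrank K (IntermediateField.fixedField H) L
  have h4 := H.card_mul_index
  have h5 : 0 < Nat.card H := Nat.card_pos
  rw [h1, ← h2, ← h4, mul_comm] at h3
  exact Nat.eq_of_mul_eq_mul_left h5 h3

/-- **(B')** for `F = L^H`: `Frob_v(F/K) = 1 ↔ Frob_v(L/K) ∈ H` -/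
theorem fd_frobAt_fixedField_eq_one_iff (hcomm : ∀ a b : L ≃ₐ[K] L, a * b = b * a)
    (H : Subgroup (L ≃ₐ[K] L)) (v : HeightOneSpectrum (𝓞 K)) (hv : IsUnramifiedIn K L v) :
    haveI := fd_normal_of_comm K L hcomm H
    haveI : IsGalois K (IntermediateField.fixedField H) :=
      IsGalois.of_fixedField_normal_subgroup H
    frobAt K (IntermediateField.fixedField H) v = 1 ↔ frobAt K L v ∈ H := by
  haveI := fd_normal_of_comm K L hcomm H
  haveI : IsGalois K (IntermediateField.fixedField H) :=
    IsGalois.of_fixedField_normal_subgroup H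
  rw [← fd_frobAt_restrict K (IntermediateField.fixedField H) L hcomm v hv,
    ← MonoidHom.mem_ker, IntermediateField.restrictNormalHom_ker,
    IntermediateField.fixingSubgroup_fixedField]

end fixed

end Fermat.Agent.S56
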