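import Mathlib

/-!
# S56, package FROB, file M: the formal "Möbius inversion over subgroups"

`G` a finite group, `frob : X → G`, weights `a i : X → ℝ` (summable, `i` a parameter), `T ⊆ X`.
If for every subgroup `H` the sum over `{x ∈ T | frob x ∈ H}` is `(1/[G:H]) ℓ + O(1)`, then for
every subgroup `H` the sum over `{x ∈ T | zpowers (frob x) = H}` is `(gens H / |G|) ℓ + O(1)`,
`gens H` the number of generators of `H`; hence if `ℓ` is unbounded and `H` is cyclic, some
`x ∈ T` has `zpowers (frob x) = H`.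
-/

set_option autoImplicit false

namespace Fermat.Agent.S56

open scoped Classical in
/-- the number of generators of a subgroup -/
noncomputable def fdGens {G : Type*} [Group G] (H : Subgroup G) : ℕ :=
  Nat.card {x : G // Subgroup.zpowers x = H}

section

variable {G : Type*} [Group G] [Finite G]

/-- the finite set of subgroups of `H` -/
noncomputable def fdLe (H : Subgroup G) : Finset (Subgroup G) :=
  (Set.toFinite {H' : Subgroup G | H' ≤ H}).toFinset

/-- the finite set of proper subgroups of `H` -/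
noncomputable def fdLt (H : Subgroup G) : Finset (Subgroup G) :=
  (Set.toFinite {H' : Subgroup G | H' < H}).toFinset

@[simp] theorem mem_fdLe {H H' : Subgroup G} : H' ∈ fdLe H ↔ H' ≤ H := by
  simp [fdLe]

@[simp] theorem mem_fdLt {H H' : Subgroup G} : H' ∈ fdLt H ↔ H' < H := by
  simp [fdLt]

open scoped Classical in
theorem fdLe_eq_insert (H : Subgroup G) : fdLe H = insert H (fdLt H) := by
  ext H'
  simp only [mem_fdLe, Finset.mem_insert, mem_fdLt]
  exact le_iff_eq_or_lt

theorem fd_notMem_fdLt (H : Subgroup G) : H ∉ fdLt H := by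
  rw [mem_fdLt]
  exact lt_irrefl H

/-- every element of `H` generates exactly one subgroup of `H` -/
theorem fd_sum_gens (H : Subgroup G) : ∑ H' ∈ fdLe H, fdGens H' = Nat.card H := by
  classical
  have := Fintype.ofFinite G
  have h1 : Nat.card H = (Finset.univ.filter (fun x : G => x ∈ H)).card := by
    rw [Nat.card_eq_fintype_card, Fintype.card_subtype]
  rw [h1, Finset.card_eq_sum_card_fiberwise (f := fun x : G => Subgroup.zpowers x)
    (t := fdLe H)]
  · refine Finset.sum_congr rfl fun H' hH' => ?_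
    rw [mem_fdLe] at hH'
    unfold fdGens
    rw [Nat.card_eq_fintype_card, Fintype.card_subtype]
    congr 1
    ext x
    simp only [Finset.mem_filter, Finset.mem_univ, true_and, iff_and_self]
    intro hx
    apply hH'
    rw [← hx]
    exact Subgroup.mem_zpowers x
  · intro x hx
    rw [Finset.mem_coe, Finset.mem_filter] at hx
    rw [Finset.mem_coe, mem_fdLe]
    exact (Subgroup.zpowers_le).mpr hx.2

end

section main

variable {G : Type*} [Group G] [Finite G] {X : Type*} {I : Type*}
  (frob : X → G) (T : Set X) (a : I → X → ℝ) (ℓ : I → ℝ)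

/-- the sum over `{x ∈ T | frob x ∈ H}` -/
noncomputable def fdSumMem (H : Subgroup G) (i : I) : ℝ :=
  ∑' x, Set.indicator {x | x ∈ T ∧ frob x ∈ H} (a i) x

/-- the sum over `{x ∈ T | zpowers (frob x) = H}` -/
noncomputable def fdSumGen (H : Subgroup G) (i : I) : ℝ :=
  ∑' x, Set.indicator {x | x ∈ T ∧ Subgroup.zpowers (frob x) = H} (a i) x

theorem fdSumMem_eq_sum (ha : ∀ i, Summable (a i)) (H : Subgroup G) (i : I) :
    fdSumMem frob T a H i = ∑ H' ∈ fdLe H, fdSumGen frob T a H' i := by
  classical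
  unfold fdSumMem fdSumGen
  rw [← Summable.tsum_finsetSum (fun H' _ => (ha i).indicator _)]
  refine tsum_congr fun x => ?_
  by_cases hx : x ∈ T ∧ frob x ∈ H
  · rw [Set.indicator_of_mem (show x ∈ {x | x ∈ T ∧ frob x ∈ H} from hx)]
    rw [Finset.sum_eq_single (Subgroup.zpowers (frob x))]
    · rw [Set.indicator_of_mem]
      exact ⟨hx.1, rfl⟩
    · intro H' _ hne
      refine Set.indicator_of_notMem ?_ _
      rintro ⟨_, h⟩
      exact hne h.symm
    · intro h
      exfalso
      apply h
      rw [mem_fdLe]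
      exact (Subgroup.zpowers_le).mpr hx.2
  · rw [Set.indicator_of_notMem (show x ∉ {x | x ∈ T ∧ frob x ∈ H} from hx)]
    symm
    refine Finset.sum_eq_zero fun H' hH' => ?_
    refine Set.indicator_of_notMem ?_ _
    rintro ⟨h1, h2⟩
    apply hx
    refine ⟨h1, ?_⟩
    have h3 := mem_fdLe.mp hH'
    rw [← h2] at h3
    exact h3 (Subgroup.mem_zpowers _)

/-- **the formal inversion** -/
theorem fd_sumGen_bounded (ha : ∀ i, Summable (a i))
    (hmem : ∀ H : Subgroup G, ∃ M : ℝ, ∀ i,
      |(H.index : ℝ) * fdSumMem frob T a H i - ℓ i| ≤ M) :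
    ∀ H : Subgroup G, ∃ M : ℝ, ∀ i,
      |(Nat.card G : ℝ) * fdSumGen frob T a H i - (fdGens H : ℝ) * ℓ i| ≤ M := by
  classical
  intro H
  induction H using WellFoundedLT.induction with
  | ind H ih =>
    obtain ⟨M0, hM0⟩ := hmem H
    -- the strictly smaller subgroups
    set Sm : Finset (Subgroup G) := fdLt H with hSm
    have hSm_mem : ∀ H', H' ∈ Sm ↔ H' < H := fun H' => mem_fdLt
    choose! Mf hMf using fun H' (h : H' < H) => ih H' h
    refine ⟨(Nat.card H : ℝ) * M0 + ∑ H' ∈ Sm, Mf H', fun i => ?_⟩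
    have hfilter : fdLe H = insert H Sm := fdLe_eq_insert H
    have hnot : H ∉ Sm := by
      rw [hSm_mem]
      exact lt_irrefl H
    have h1 := fdSumMem_eq_sum frob T a ha H i
    rw [hfilter, Finset.sum_insert hnot] at h1
    have h2 := fd_sum_gens H
    rw [hfilter, Finset.sum_insert hnot] at h2
    have h2' : (fdGens H : ℝ) = (Nat.card H : ℝ) - ∑ H' ∈ Sm, (fdGens H' : ℝ) := by
      have : ((fdGens H + ∑ H' ∈ Sm, fdGens H' : ℕ) : ℝ) = (Nat.card H : ℝ) := by
        exact_mod_cast h2
      push_cast at this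
      linarith
    have h3 : fdSumGen frob T a H i =
        fdSumMem frob T a H i - ∑ H' ∈ Sm, fdSumGen frob T a H' i := by
      linarith
    have hcard : (Nat.card G : ℝ) = (Nat.card H : ℝ) * (H.index : ℝ) := by
      have := H.card_mul_index
      exact_mod_cast this.symm
    have h4 : |(Nat.card G : ℝ) * fdSumMem frob T a H i - (Nat.card H : ℝ) * ℓ i| ≤
        (Nat.card H : ℝ) * M0 := by
      have : (Nat.card G : ℝ) * fdSumMem frob T a H i - (Nat.card H : ℝ) * ℓ i =
          (Nat.card H : ℝ) * ((H.index : ℝ) * fdSumMem frob T a H i - ℓ i) := by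
        rw [hcard]
        ring
      rw [this, abs_mul, abs_of_nonneg (Nat.cast_nonneg _)]
      exact mul_le_mul_of_nonneg_left (hM0 i) (Nat.cast_nonneg _)
    have h5 : |∑ H' ∈ Sm, ((Nat.card G : ℝ) * fdSumGen frob T a H' i - (fdGens H' : ℝ) * ℓ i)| ≤
        ∑ H' ∈ Sm, Mf H' := by
      refine (Finset.abs_sum_le_sum_abs _ _).trans (Finset.sum_le_sum fun H' hH' => ?_)
      exact hMf H' ((hSm_mem H').mp hH') i
    have h6 : (Nat.card G : ℝ) * fdSumGen frob T a H i - (fdGens H : ℝ) * ℓ i =
        ((Nat.card G : ℝ) * fdSumMem frob T a H i - (Nat.card H : ℝ) * ℓ i) -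
          ∑ H' ∈ Sm, ((Nat.card G : ℝ) * fdSumGen frob T a H' i - (fdGens H' : ℝ) * ℓ i) := by
      rw [h3, h2', Finset.sum_sub_distrib, ← Finset.mul_sum, ← Finset.sum_mul]
      ring
    rw [h6]
    exact (abs_sub _ _).trans (add_le_add h4 h5)

/-- **existence**: if `ℓ` is unbounded above and `H` has a generator, some `x ∈ T` has
`zpowers (frob x) = H`. -/
theorem fd_exists_gen (ha : ∀ i, Summable (a i))
    (hmem : ∀ H : Subgroup G, ∃ M : ℝ, ∀ i,
      |(H.index : ℝ) * fdSumMem frob T a H i - ℓ i| ≤ M)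
    (hℓ : ∀ M : ℝ, ∃ i, M < ℓ i) (g : G) :
    ∃ x ∈ T, Subgroup.zpowers (frob x) = Subgroup.zpowers g := by
  by_contra hcon
  push Not at hcon
  obtain ⟨M, hM⟩ := fd_sumGen_bounded frob T a ℓ ha hmem (Subgroup.zpowers g)
  have hzero : ∀ i, fdSumGen frob T a (Subgroup.zpowers g) i = 0 := by
    intro i
    unfold fdSumGen
    have : Set.indicator {x | x ∈ T ∧ Subgroup.zpowers (frob x) = Subgroup.zpowers g} (a i) =
        fun _ => 0 := by
      funext x
      refine Set.indicator_of_notMem ?_ _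
      rintro ⟨h1, h2⟩
      exact hcon x h1 h2
    rw [this, tsum_zero]
  have hgens : (1 : ℝ) ≤ (fdGens (Subgroup.zpowers g) : ℝ) := by
    have : 0 < fdGens (Subgroup.zpowers g) := by
      unfold fdGens
      have : Nonempty {x : G // Subgroup.zpowers x = Subgroup.zpowers g} := ⟨⟨g, rfl⟩⟩
      exact Nat.card_pos
    exact_mod_cast this
  obtain ⟨i, hi⟩ := hℓ (max M 0)
  have h1 := hM i
  rw [hzero i, mul_zero, zero_sub, abs_neg] at h1
  have h2 : 0 < ℓ i := lt_of_le_of_lt (le_max_right _ _) hi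
  have h3 : M < ℓ i := lt_of_le_of_lt (le_max_left _ _) hi
  have h4 : ℓ i ≤ (fdGens (Subgroup.zpowers g) : ℝ) * ℓ i := by nlinarith
  have h5 := le_abs_self ((fdGens (Subgroup.zpowers g) : ℝ) * ℓ i)
  linarith

end main

end Fermat.Agent.S56
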