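import Fermat.Agent.S56.Frob.Tower
import Fermat.Agent.S56.Frob.Moebius

/-!
# S56, package FROB, file C: abelian extensions

For an abelian extension `L/K` of number fields, `g ∈ Gal(L/K)` and a finite set `B` of excluded
residue characteristics, there is a good place `v` of `K` (`N v` a prime not in `B`), unramified
in `L`, whose Frobenius generates the same cyclic subgroup as `g` (`fd_exists_frobAt_zpowers`).
No Artin reciprocity: only `∑_v N(v)^(-s) = log (1/(s-1)) + O(1)` for the fixed fields `L^H`.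
-/

set_option autoImplicit false

namespace Fermat.Agent.S56

open NumberField IsDedekindDomain Fermat.Agent.S14

variable (K L : Type) [Field K] [NumberField K] [Field L] [NumberField L] [Algebra K L]
  [IsGalois K L]

/-- the sums over `{v good | Frob_v ∈ H}` -/
theorem fd_mem_sum (hcomm : ∀ a b : L ≃ₐ[K] L, a * b = b * a) (B : Finset ℕ)
    (hB : ∀ v, IsGoodPlace K B v → IsUnramifiedIn K L v) (H : Subgroup (L ≃ₐ[K] L)) :
    ∃ M : ℝ, ∀ i : {s : ℝ // 1 < s ∧ s < 2},
      |(H.index : ℝ) * fdSumMem (frobAt K L) {v | IsGoodPlace K B v}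
          (fun (i : {s : ℝ // 1 < s ∧ s < 2}) v => nvPow K v i.1) H i -
        Real.log (1 / (i.1 - 1))| ≤ M := by
  haveI := fd_normal_of_comm K L hcomm H
  haveI : IsGalois K (IntermediateField.fixedField H) :=
    IsGalois.of_fixedField_normal_subgroup H
  have hBF : ∀ v, IsGoodPlace K B v → IsUnramifiedIn K (IntermediateField.fixedField H) v :=
    fun v hv => fd_isUnramifiedIn_tower K (IntermediateField.fixedField H) L v (hB v hv)
  obtain ⟨M, hM⟩ := fd_split_sum K (IntermediateField.fixedField H) B hBF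
  refine ⟨M, fun i => ?_⟩
  have h := hM i.1 i.2.1 i.2.2
  rw [fd_finrank_fixedField K L H] at h
  have hset : {v | IsGoodPlace K B v ∧ frobAt K (IntermediateField.fixedField H) v = 1} =
      {v | v ∈ {v | IsGoodPlace K B v} ∧ frobAt K L v ∈ H} := by
    ext v
    simp only [Set.mem_ofPred_eq]
    constructor
    · rintro ⟨h1, h2⟩
      exact ⟨h1, (fd_frobAt_fixedField_eq_one_iff K L hcomm H v (hB v h1)).mp h2⟩
    · rintro ⟨h1, h2⟩
      exact ⟨h1, (fd_frobAt_fixedField_eq_one_iff K L hcomm H v (hB v h1)).mpr h2⟩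
  rw [hset] at h
  exact h

/-- **(C)** in an abelian extension every cyclic subgroup is generated by the Frobenius of a good
place -/
theorem fd_exists_frobAt_zpowers (hcomm : ∀ a b : L ≃ₐ[K] L, a * b = b * a) (B : Finset ℕ)
    (hB : ∀ v, IsGoodPlace K B v → IsUnramifiedIn K L v) (g : L ≃ₐ[K] L) :
    ∃ v : HeightOneSpectrum (𝓞 K), IsGoodPlace K B v ∧
      Subgroup.zpowers (frobAt K L v) = Subgroup.zpowers g := by
  have hfin : Finite (L ≃ₐ[K] L) := inferInstance
  obtain ⟨v, hv, h⟩ := fd_exists_gen (frobAt K L) {v | IsGoodPlace K B v}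
    (fun (i : {s : ℝ // 1 < s ∧ s < 2}) v => nvPow K v i.1)
    (fun i => Real.log (1 / (i.1 - 1)))
    (fun i => primeSum_summable K i.2.1)
    (fun H => fd_mem_sum K L hcomm B hB H)
    (fun M => by
      obtain ⟨s, hs1, hs2, h⟩ := dens_exists_log_gt M
      exact ⟨⟨s, hs1, hs2⟩, h⟩) g
  exact ⟨v, hv, h⟩

end Fermat.Agent.S56
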