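import Fermat.Agent.S56.Frob.Qbar

/-!
# S56, package FROB, file F: Frobenius density for homomorphisms `G_ℚ → Γ` with open kernel

`fd_exists_isFrobeniusAt_hom` : `f : G_ℚ →* Γ` with open kernel, `σ ∈ G_ℚ`, `B` finite ⟹ there are
a prime `q ∉ B` and `a` prime to the order of `f σ` such that some Frobenius element `φ` at some
valuation subring over `q` has `f φ = (f σ) ^ a`, and EVERY Frobenius element `φ'` at EVERY
valuation subring over `q` has `f φ'` conjugate (inside `f(G_ℚ)`) to `(f σ) ^ a`.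
-/

set_option autoImplicit false

namespace Fermat.Agent.S56

open NumberField

local notation "Qb" => AlgebraicClosure ℚ
local notation "GQ" => (AlgebraicClosure ℚ ≃ₐ[ℚ] AlgebraicClosure ℚ)

local instance fdh_isAlgebraic : Algebra.IsAlgebraic ℚ (AlgebraicClosure ℚ) :=
  AlgebraicClosure.isAlgebraic ℚ
local instance fdh_isAlgClosure : IsAlgClosure ℚ (AlgebraicClosure ℚ) :=
  ⟨inferInstance, inferInstance⟩
local instance fdh_normal : Normal ℚ (AlgebraicClosure ℚ) :=
  IsAlgClosure.normal ℚ (AlgebraicClosure ℚ)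
local instance fdh_isGalois : IsGalois ℚ (AlgebraicClosure ℚ) := inferInstance

section field

variable (U : Subgroup GQ)

/-- the fixed field of an open subgroup has that subgroup as fixing subgroup -/
theorem fdh_fixingSubgroup (hU : IsOpen (U : Set GQ)) :
    (IntermediateField.fixedField U).fixingSubgroup = U :=
  InfiniteGalois.fixingSubgroup_fixedField ⟨U, U.isClosed_of_isOpen hU⟩

theorem fdh_finiteDimensional (hU : IsOpen (U : Set GQ)) :
    FiniteDimensional ℚ (IntermediateField.fixedField U) := by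
  rw [← InfiniteGalois.isOpen_iff_finite, fdh_fixingSubgroup U hU]
  exact hU

theorem fdh_isGalois' (hU : IsOpen (U : Set GQ)) [U.Normal] :
    IsGalois ℚ (IntermediateField.fixedField U) := by
  have h : @IsGalois ℚ _ (IntermediateField.fixedField U) _
      (IntermediateField.algebra' (IntermediateField.fixedField U)) := by
    rw [← InfiniteGalois.normal_iff_isGalois, fdh_fixingSubgroup U hU]
    infer_instance
  convert h
  exact Subsingleton.elim _ _

end field

/-- **(F) FROBENIUS DENSITY for a homomorphism with open kernel.** -/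
theorem fd_exists_isFrobeniusAt_hom {Γ : Type*} [Group Γ] (f : GQ →* Γ)
    (hf : IsOpen (f.ker : Set GQ)) (σ : GQ) (B : Finset ℕ) :
    ∃ q : ℕ, q.Prime ∧ q ∉ B ∧ ∃ a : ℕ, a.Coprime (orderOf (f σ)) ∧
      (∃ A : ValuationSubring Qb, A.LiesOverPrime q ∧ ∃ φ : GQ, A.IsFrobeniusAt φ q ∧
        f φ = f σ ^ a) ∧
      ∀ A' : ValuationSubring Qb, A'.LiesOverPrime q → ∀ φ' : GQ, A'.IsFrobeniusAt φ' q →
        ∃ τ : GQ, f φ' = f τ * f σ ^ a * (f τ)⁻¹ := by
  set U : Subgroup GQ := f.ker with hU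
  set E : IntermediateField ℚ Qb := IntermediateField.fixedField U with hE
  have hfix : E.fixingSubgroup = U := fdh_fixingSubgroup U hf
  haveI hfd : FiniteDimensional ℚ ↥E := fdh_finiteDimensional U hf
  haveI hnf : NumberField ↥E := { to_charZero := inferInstance, to_finiteDimensional := hfd }
  haveI hgal : IsGalois ℚ ↥E := fdh_isGalois' U hf
  -- `res g = res h ↔ f g = f h`
  have hker : ∀ g : GQ, AlgEquiv.restrictNormalHom (F := ℚ) (K₁ := Qb) ↥E g = 1 ↔ f g = 1 := by
    intro g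
    rw [← MonoidHom.mem_ker (f := f), ← hU, ← hfix, IntermediateField.mem_fixingSubgroup_iff]
    constructor
    · intro h x hx
      have h1 := AlgEquiv.restrictNormal_commutes g ↥E ⟨x, hx⟩
      have h2 : (AlgEquiv.restrictNormalHom (F := ℚ) (K₁ := Qb) ↥E g) ⟨x, hx⟩ = ⟨x, hx⟩ := by
        rw [h]
        rfl
      have h3 : (g.restrictNormal ↥E) ⟨x, hx⟩ = ⟨x, hx⟩ := h2
      rw [h3] at h1
      exact h1.symm
    · intro h
      ext x
      have h1 := AlgEquiv.restrictNormal_commutes g ↥E x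
      exact h1.trans (h x x.2)
  have hiff : ∀ g h : GQ, AlgEquiv.restrictNormalHom (F := ℚ) (K₁ := Qb) ↥E g =
      AlgEquiv.restrictNormalHom (F := ℚ) (K₁ := Qb) ↥E h ↔ f g = f h := by
    intro g h
    rw [← inv_mul_eq_one, ← map_inv, ← map_mul, hker, map_mul, map_inv, inv_mul_eq_one]
  have hord : orderOf (AlgEquiv.restrictNormalHom (F := ℚ) (K₁ := Qb) ↥E σ) = orderOf (f σ) := by
    rw [orderOf_eq_orderOf_iff]
    intro n
    rw [← map_pow, ← map_pow, hker]
  obtain ⟨q, hq, hqB, a, hacop, ⟨A, hA, φ, hφ, hres⟩, hall⟩ :=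
    fd_exists_isFrobeniusAt_strong E σ B
  refine ⟨q, hq, hqB, a, hord ▸ hacop, ⟨A, hA, φ, hφ, ?_⟩, ?_⟩
  · rw [← map_pow] at hres ⊢
    exact (hiff _ _).mp hres
  · intro A' hA' φ' hφ'
    obtain ⟨τ, hτ⟩ := hall A' hA' φ' hφ'
    obtain ⟨τ', rfl⟩ := AlgEquiv.restrictNormalHom_surjective (F := ℚ) (K₁ := ↥E) Qb τ
    refine ⟨τ', ?_⟩
    rw [← map_pow, ← map_inv, ← map_mul, ← map_mul] at hτ ⊢
    exact (hiff _ _).mp hτ

end Fermat.Agent.S56
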