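import Mathlib

/-!
# S56, package FROB, file K: the formal "killing" induction for Taylor–Wiles primes

`H` a finite-dimensional vector space (the cohomology group to be killed), `r = dim H`,
`K q ⊆ H` the kernel of the localisation at the prime `q`, `TWP q` the Taylor–Wiles property.
If every nonzero `x ∈ H` survives localisation at some `TWP`-prime outside any given finite set,
then there are `r` distinct `TWP`-primes whose localisation kernels intersect trivially
(`fd_exists_killing_family`).
-/

set_option autoImplicit false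

namespace Fermat.Agent.S56

section

variable {k : Type*} [Field k] {H : Type*} [AddCommGroup H] [Module k H] [FiniteDimensional k H]

/-- inductive step/statement in `Finset` form -/
theorem fd_exists_killing_finset (TWP : ℕ → Prop) (K : ℕ → Submodule k H)
    (hyp : ∀ x : H, x ≠ 0 → ∀ B : Finset ℕ, ∃ q : ℕ, q ∉ B ∧ TWP q ∧ x ∉ K q) (B₀ : Finset ℕ) :
    ∀ j : ℕ, j ≤ Module.finrank k H → ∃ Q : Finset ℕ, Q.card = j ∧ Disjoint Q B₀ ∧
      (∀ q ∈ Q, TWP q) ∧
      Module.finrank k ↥(⨅ q ∈ Q, K q) + j ≤ Module.finrank k H := by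
  intro j
  induction j with
  | zero =>
    intro _
    refine ⟨∅, rfl, Finset.disjoint_empty_left _, fun q hq => absurd hq (Finset.notMem_empty q), ?_⟩
    rw [add_zero]
    exact Submodule.finrank_le _
  | succ j ih =>
    intro hj
    obtain ⟨Q, hcard, hdisj, hTWP, hrank⟩ := ih (Nat.le_of_succ_le hj)
    set W : Submodule k H := ⨅ q ∈ Q, K q with hW
    -- a nonzero element to kill (of `W` if possible, of `H` otherwise)
    have hHne : ∃ x : H, x ≠ 0 := by
      by_contra hcon
      push Not at hcon
      have : Module.finrank k H = 0 := by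
        rw [Module.finrank_zero_iff]
        exact ⟨fun a b => by rw [hcon a, hcon b]⟩
      omega
    by_cases hWbot : W = ⊥
    · obtain ⟨x, hx⟩ := hHne
      obtain ⟨q, hqB, hq, -⟩ := hyp x hx (Q ∪ B₀)
      have hqQ : q ∉ Q := fun h => hqB (Finset.mem_union_left _ h)
      have hqB₀ : q ∉ B₀ := fun h => hqB (Finset.mem_union_right _ h)
      refine ⟨insert q Q, ?_, ?_, ?_, ?_⟩
      · rw [Finset.card_insert_of_notMem hqQ, hcard]
      · rw [Finset.disjoint_insert_left]
        exact ⟨hqB₀, hdisj⟩
      · intro q' hq'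
        rcases Finset.mem_insert.mp hq' with rfl | h
        · exact hq
        · exact hTWP q' h
      · have : (⨅ q' ∈ insert q Q, K q') = ⊥ := by
          rw [Finset.iInf_insert, ← hW, hWbot, inf_bot_eq]
        rw [this, finrank_bot]
        omega
    · obtain ⟨x, hxW, hx0⟩ := Submodule.exists_mem_ne_zero_of_ne_bot hWbot
      obtain ⟨q, hqB, hq, hxq⟩ := hyp x hx0 (Q ∪ B₀)
      have hqQ : q ∉ Q := fun h => hqB (Finset.mem_union_left _ h)
      have hqB₀ : q ∉ B₀ := fun h => hqB (Finset.mem_union_right _ h)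
      refine ⟨insert q Q, ?_, ?_, ?_, ?_⟩
      · rw [Finset.card_insert_of_notMem hqQ, hcard]
      · rw [Finset.disjoint_insert_left]
        exact ⟨hqB₀, hdisj⟩
      · intro q' hq'
        rcases Finset.mem_insert.mp hq' with rfl | h
        · exact hq
        · exact hTWP q' h
      · have heq : (⨅ q' ∈ insert q Q, K q') = K q ⊓ W := by
          rw [Finset.iInf_insert]
        have hlt : K q ⊓ W < W := by
          refine lt_of_le_of_ne inf_le_right fun h => ?_
          apply hxq
          have h2 : x ∈ K q ⊓ W := by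
            rw [h]
            exact hxW
          exact h2.1
        have := Submodule.finrank_lt_finrank_of_lt hlt
        rw [heq]
        omega

/-- **the killing family**: `r = dim H` distinct `TWP`-primes outside `B₀` whose localisation
kernels intersect trivially -/
theorem fd_exists_killing_family (TWP : ℕ → Prop) (K : ℕ → Submodule k H)
    (hyp : ∀ x : H, x ≠ 0 → ∀ B : Finset ℕ, ∃ q : ℕ, q ∉ B ∧ TWP q ∧ x ∉ K q) (B₀ : Finset ℕ) :
    ∃ qv : Fin (Module.finrank k H) → ℕ, Function.Injective qv ∧ (∀ i, qv i ∉ B₀) ∧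
      (∀ i, TWP (qv i)) ∧ ∀ x : H, (∀ i, x ∈ K (qv i)) → x = 0 := by
  obtain ⟨Q, hcard, hdisj, hTWP, hrank⟩ :=
    fd_exists_killing_finset TWP K hyp B₀ (Module.finrank k H) le_rfl
  have hbot : (⨅ q ∈ Q, K q) = ⊥ := by
    rw [← Submodule.finrank_eq_zero]
    omega
  let e : Fin (Module.finrank k H) ≃ ↥Q := (Q.equivFinOfCardEq hcard).symm
  refine ⟨fun i => (e i : ℕ), ?_, ?_, ?_, ?_⟩
  · intro i j h
    exact e.injective (Subtype.ext h)
  · intro i h
    exact (Finset.disjoint_left.mp hdisj) (e i).2 h
  · intro i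
    exact hTWP _ (e i).2
  · intro x hx
    have : x ∈ ⨅ q ∈ Q, K q := by
      rw [Submodule.mem_iInf]
      intro q
      rw [Submodule.mem_iInf]
      intro hq
      have h2 := hx (e.symm ⟨q, hq⟩)
      have h3 : ((e (e.symm ⟨q, hq⟩) : ↥Q) : ℕ) = q := by rw [e.apply_symm_apply]
      have h4 : x ∈ K ((e (e.symm ⟨q, hq⟩) : ↥Q) : ℕ) := h2
      rwa [h3] at h4
    rw [hbot] at this
    exact (Submodule.mem_bot k).mp this

end

end Fermat.Agent.S56
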