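import Fermat.Agent.S56.Frob.Rat
import Fermat.Agent.S54.ExistsFrobenius

/-!
# S56, package FROB, file E: the Frobenius density theorem in the Prelude's language

`fd_exists_isFrobeniusAt` : `E ⊆ ℚ̄` finite Galois over `ℚ`, `σ ∈ G_ℚ`, `B` a finite set of
primes.  Then there are a prime `q ∉ B`, a valuation subring `A` of `ℚ̄` over `q`, a Frobenius
element `φ` at `A` (`A.IsFrobeniusAt φ q`) and `a` prime to the order of `σ|_E` with
`φ|_E = (σ|_E) ^ a`; moreover `q` is unramified in `E`: EVERY Frobenius element at EVERY valuation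
subring over `q` restricts to a conjugate of `(σ|_E)^a` (`fd_exists_isFrobeniusAt_conj`).
-/

set_option autoImplicit false

namespace Fermat.Agent.S56

open NumberField IsDedekindDomain Fermat.Agent.S14 Fermat.Agent.S54

local notation "Qb" => AlgebraicClosure ℚ
local notation "GQ" => (AlgebraicClosure ℚ ≃ₐ[ℚ] AlgebraicClosure ℚ)

section emb

variable (E : IntermediateField ℚ Qb) [NumberField ↥E]

/-- the embedding `𝓞 E → ℚ̄` -/
noncomputable def fdEmb : 𝓞 ↥E →+* Qb := (algebraMap ↥E Qb).comp (algebraMap (𝓞 ↥E) ↥E)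

theorem fdEmb_apply (x : 𝓞 ↥E) : fdEmb E x = ((x : ↥E) : Qb) := rfl

theorem fdEmb_injective : Function.Injective (fdEmb E) := by
  intro x y h
  apply RingOfIntegers.ext
  exact Subtype.ext h

theorem fdEmb_isIntegral (x : 𝓞 ↥E) : IsIntegral ℤ (fdEmb E x) := by
  have h1 : IsIntegral ℤ (x : ↥E) := RingOfIntegers.isIntegral_coe x
  exact h1.map (E.val.restrictScalars ℤ)

theorem fdEmb_mem (A : ValuationSubring Qb) (x : 𝓞 ↥E) : fdEmb E x ∈ A := by
  have h1 : IsIntegral A (fdEmb E x) := (fdEmb_isIntegral E x).tower_top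
  obtain ⟨y, hy⟩ := IsIntegrallyClosed.isIntegral_iff.mp h1
  rw [← hy]
  exact y.2

/-- the ring hom `𝓞 E → A` -/
noncomputable def fdToVal (A : ValuationSubring Qb) : 𝓞 ↥E →+* A where
  toFun x := ⟨fdEmb E x, fdEmb_mem E A x⟩
  map_one' := Subtype.ext (map_one (fdEmb E))
  map_mul' x y := Subtype.ext (map_mul (fdEmb E) x y)
  map_zero' := Subtype.ext (map_zero (fdEmb E))
  map_add' x y := Subtype.ext (map_add (fdEmb E) x y)

/-- the prime of `𝓞 E` below a valuation subring of `ℚ̄` -/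
noncomputable def fdBelow (A : ValuationSubring Qb) : Ideal (𝓞 ↥E) :=
  (IsLocalRing.maximalIdeal A).comap (fdToVal E A)

instance fdBelow_isPrime (A : ValuationSubring Qb) : (fdBelow E A).IsPrime :=
  Ideal.comap_isPrime _ _

theorem mem_fdBelow_iff (A : ValuationSubring Qb) (x : 𝓞 ↥E) :
    x ∈ fdBelow E A ↔ fdEmb E x ∈ A.nonunits := by
  rw [fdBelow, Ideal.mem_comap, ← ValuationSubring.coe_mem_nonunits_iff]
  rfl

/-- every nonzero prime of `𝓞 E` lies below a valuation subring of `ℚ̄` -/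
theorem fd_exists_valuationSubring (P : Ideal (𝓞 ↥E)) [P.IsPrime] (hP : P ≠ ⊥) :
    ∃ A : ValuationSubring Qb, fdBelow E A = P := by
  have hPmax : P.IsMaximal := Ring.DimensionLEOne.maximalOfPrime hP inferInstance
  let R : Subring Qb := (fdEmb E).range
  let f' : 𝓞 ↥E →+* R := (fdEmb E).rangeRestrict
  have hf' : Function.Surjective f' := (fdEmb E).rangeRestrict_surjective
  have hf'inj : Function.Injective f' := by
    intro x y h
    apply fdEmb_injective E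
    have h2 : ((f' x : R) : Qb) = ((f' y : R) : Qb) := congrArg (fun z : R => (z : Qb)) h
    exact h2
  have hI : P.map f' ≠ ⊤ := by
    intro h
    have h1 : (1 : R) ∈ P.map f' := h ▸ Submodule.mem_top
    obtain ⟨x, hx, hx1⟩ := (Ideal.mem_map_iff_of_surjective f' hf').mp h1
    have : x = 1 := hf'inj (hx1.trans (map_one f').symm)
    exact hPmax.ne_top ((Ideal.eq_top_iff_one P).mpr (this ▸ hx))
  obtain ⟨A, -, hA⟩ := Ideal.image_subset_nonunits_valuationSubring (P.map f') hI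
  refine ⟨A, ?_⟩
  symm
  refine hPmax.eq_of_le (Ideal.IsPrime.ne_top inferInstance) fun x hx => ?_
  rw [mem_fdBelow_iff]
  exact hA ⟨f' x, Ideal.mem_map_of_mem f' hx, rfl⟩

end emb

section main

local instance fd_isAlgebraic : Algebra.IsAlgebraic ℚ (AlgebraicClosure ℚ) :=
  AlgebraicClosure.isAlgebraic ℚ
local instance fd_isAlgClosure : IsAlgClosure ℚ (AlgebraicClosure ℚ) :=
  ⟨inferInstance, inferInstance⟩
local instance fd_normal : Normal ℚ (AlgebraicClosure ℚ) :=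
  IsAlgClosure.normal ℚ (AlgebraicClosure ℚ)

variable (E : IntermediateField ℚ Qb) [NumberField ↥E] [IsGalois ℚ ↥E]

/-- the restriction of a Frobenius element of `ℚ̄` at `A` is a Frobenius element at the prime
below `A` -/
theorem fd_isArithFrobAt_of_isFrobeniusAt (A : ValuationSubring Qb) (φ : GQ) (q : ℕ)
    (hφ : A.IsFrobeniusAt φ q) (hq : Nat.card (𝓞 ℚ ⧸ (fdBelow E A).under (𝓞 ℚ)) = q) :
    IsArithFrobAt (𝓞 ℚ) (AlgEquiv.restrictNormalHom (F := ℚ) (K₁ := Qb) ↥E φ) (fdBelow E A) := by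
  obtain ⟨hdec, hres⟩ := hφ
  intro x
  rw [hq, mem_fdBelow_iff]
  set b : A := fdToVal E A x with hb
  have h1 := hres (IsLocalRing.residue A b)
  rw [← IsLocalRing.ResidueField.residue_smul, ← map_pow] at h1
  have h2 : (⟨φ, hdec⟩ : A.decompositionSubgroup ℚ) • b - b ^ q ∈ IsLocalRing.maximalIdeal A :=
    Ideal.Quotient.eq.mp h1
  rw [← ValuationSubring.coe_mem_nonunits_iff] at h2
  convert h2 using 1
  rw [map_sub, map_pow]
  congr 1
  show algebraMap ↥E Qb ((AlgEquiv.restrictNormalHom (F := ℚ) (K₁ := Qb) ↥E φ) (x : ↥E)) = _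
  exact AlgEquiv.restrictNormal_commutes φ ↥E (x : ↥E)

/-- **(E) FROBENIUS DENSITY over `ℚ`, cyclic-subgroup form.** -/
theorem fd_exists_isFrobeniusAt (σ : GQ) (B : Finset ℕ) :
    ∃ q : ℕ, q.Prime ∧ q ∉ B ∧ ∃ A : ValuationSubring Qb, A.LiesOverPrime q ∧
      ∃ φ : GQ, A.IsFrobeniusAt φ q ∧
        ∃ a : ℕ, a.Coprime (orderOf (AlgEquiv.restrictNormalHom (F := ℚ) (K₁ := Qb) ↥E σ)) ∧
          AlgEquiv.restrictNormalHom (F := ℚ) (K₁ := Qb) ↥E φ =
            (AlgEquiv.restrictNormalHom (F := ℚ) (K₁ := Qb) ↥E σ) ^ a := by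
  obtain ⟨P, hPprime, a, hPbot, hunr, hqprime, hqB, hacop, hfrob⟩ :=
    fd_exists_frob_rat ↥E (AlgEquiv.restrictNormalHom (F := ℚ) (K₁ := Qb) ↥E σ) B
  set q : ℕ := Nat.card (𝓞 ℚ ⧸ P.under (𝓞 ℚ)) with hq
  obtain ⟨A, hA⟩ := fd_exists_valuationSubring E P hPbot
  -- `A` lies over `q`
  have hqmem : ((q : ℕ) : 𝓞 ↥E) ∈ P := by
    have h1 : ((Ideal.absNorm (P.under (𝓞 ℚ)) : ℕ) : 𝓞 ℚ) ∈ P.under (𝓞 ℚ) :=
      Ideal.absNorm_mem _
    rw [Ideal.absNorm_apply, Submodule.cardQuot_apply] at h1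
    have h2 := Ideal.mem_comap.mp h1
    rwa [map_natCast] at h2
  have hAq : A.LiesOverPrime q := by
    have h1 := (mem_fdBelow_iff E A _).mp (hA ▸ hqmem)
    rwa [map_natCast] at h1
  obtain ⟨φ, hφ⟩ := exists_isFrobeniusAt_algebraicClosure A hqprime hAq
  refine ⟨q, hqprime, hqB, A, hAq, φ, hφ, a, hacop, ?_⟩
  have h3 := fd_isArithFrobAt_of_isFrobeniusAt E A φ q hφ (by rw [hA])
  rw [hA] at h3
  have := hunr P rfl
  exact artin_frob_unique P h3 hfrob

omit [IsGalois ℚ ↥E] in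
/-- two primes of `𝓞 E` containing the same rational prime lie over the same prime of `𝓞 ℚ` -/
theorem fd_under_eq_of_natCast_mem {q : ℕ} (hq : q.Prime) (P P' : Ideal (𝓞 ↥E)) [P.IsPrime]
    [P'.IsPrime] (hP : ((q : ℕ) : 𝓞 ↥E) ∈ P) (hP' : ((q : ℕ) : 𝓞 ↥E) ∈ P') :
    P'.under (𝓞 ℚ) = P.under (𝓞 ℚ) := by
  have hmax : (Ideal.span {(q : ℤ)}).IsMaximal :=
    PrincipalIdealRing.isMaximal_of_irreducible (Nat.prime_iff_prime_int.mp hq).irreducible
  have key : ∀ (Q : Ideal (𝓞 ↥E)) [Q.IsPrime], ((q : ℕ) : 𝓞 ↥E) ∈ Q →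
      Q.under ℤ = Ideal.span {(q : ℤ)} := by
    intro Q hQ hmem
    symm
    refine hmax.eq_of_le (Ideal.comap_ne_top _ hQ.ne_top) ?_
    rw [Ideal.span_le, Set.singleton_subset_iff, SetLike.mem_coe, Ideal.under_def,
      Ideal.mem_comap]
    simpa using hmem
  have hsurj : Function.Surjective (algebraMap ℤ (𝓞 ℚ)) := by
    intro x
    refine ⟨Rat.ringOfIntegersEquiv x, ?_⟩
    have h1 : algebraMap ℤ (𝓞 ℚ) = (Rat.ringOfIntegersEquiv.symm : ℤ →+* 𝓞 ℚ) :=
      RingHom.ext_int _ _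
    rw [h1]
    exact Rat.ringOfIntegersEquiv.symm_apply_apply x
  apply Ideal.comap_injective_of_surjective _ hsurj
  show (P'.under (𝓞 ℚ)).under ℤ = (P.under (𝓞 ℚ)).under ℤ
  rw [Ideal.under_under, Ideal.under_under, key P hP, key P' hP']

open scoped Pointwise in
/-- **(E') FROBENIUS DENSITY over `ℚ`, strong form**: the prime `q` is unramified in `E`, and
every Frobenius element at every valuation subring over `q` restricts to a conjugate of
`(σ|_E) ^ a`. -/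
theorem fd_exists_isFrobeniusAt_strong (σ : GQ) (B : Finset ℕ) :
    ∃ q : ℕ, q.Prime ∧ q ∉ B ∧
      ∃ a : ℕ, a.Coprime (orderOf (AlgEquiv.restrictNormalHom (F := ℚ) (K₁ := Qb) ↥E σ)) ∧
        (∃ A : ValuationSubring Qb, A.LiesOverPrime q ∧ ∃ φ : GQ, A.IsFrobeniusAt φ q ∧
          AlgEquiv.restrictNormalHom (F := ℚ) (K₁ := Qb) ↥E φ =
            (AlgEquiv.restrictNormalHom (F := ℚ) (K₁ := Qb) ↥E σ) ^ a) ∧
        ∀ A' : ValuationSubring Qb, A'.LiesOverPrime q → ∀ φ' : GQ, A'.IsFrobeniusAt φ' q →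
          ∃ τ : ↥E ≃ₐ[ℚ] ↥E, AlgEquiv.restrictNormalHom (F := ℚ) (K₁ := Qb) ↥E φ' =
            τ * (AlgEquiv.restrictNormalHom (F := ℚ) (K₁ := Qb) ↥E σ) ^ a * τ⁻¹ := by
  obtain ⟨P, hPprime, a, hPbot, hunr, hqprime, hqB, hacop, hfrob⟩ :=
    fd_exists_frob_rat ↥E (AlgEquiv.restrictNormalHom (F := ℚ) (K₁ := Qb) ↥E σ) B
  set q : ℕ := Nat.card (𝓞 ℚ ⧸ P.under (𝓞 ℚ)) with hq
  obtain ⟨A, hA⟩ := fd_exists_valuationSubring E P hPbot
  have hqmem : ((q : ℕ) : 𝓞 ↥E) ∈ P := by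
    have h1 : ((Ideal.absNorm (P.under (𝓞 ℚ)) : ℕ) : 𝓞 ℚ) ∈ P.under (𝓞 ℚ) :=
      Ideal.absNorm_mem _
    rw [Ideal.absNorm_apply, Submodule.cardQuot_apply] at h1
    have h2 := Ideal.mem_comap.mp h1
    rwa [map_natCast] at h2
  have hAq : A.LiesOverPrime q := by
    have h1 := (mem_fdBelow_iff E A _).mp (hA ▸ hqmem)
    rwa [map_natCast] at h1
  obtain ⟨φ, hφ⟩ := exists_isFrobeniusAt_algebraicClosure A hqprime hAq
  refine ⟨q, hqprime, hqB, a, hacop, ⟨A, hAq, φ, hφ, ?_⟩, ?_⟩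
  · have h3 := fd_isArithFrobAt_of_isFrobeniusAt E A φ q hφ (by rw [hA])
    rw [hA] at h3
    have := hunr P rfl
    exact artin_frob_unique P h3 hfrob
  · intro A' hA' φ' hφ'
    have hqmem' : ((q : ℕ) : 𝓞 ↥E) ∈ fdBelow E A' := by
      rw [mem_fdBelow_iff, map_natCast]
      exact hA'
    have hunder : (fdBelow E A').under (𝓞 ℚ) = P.under (𝓞 ℚ) :=
      fd_under_eq_of_natCast_mem E hqprime P (fdBelow E A') hqmem hqmem'
    obtain ⟨τ, hτ⟩ := Algebra.IsInvariant.exists_smul_of_under_eq (𝓞 ℚ) (𝓞 ↥E) (↥E ≃ₐ[ℚ] ↥E)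
      P (fdBelow E A') hunder.symm
    refine ⟨τ, ?_⟩
    have h3 := fd_isArithFrobAt_of_isFrobeniusAt E A' φ' q hφ' (by rw [hunder])
    have h4 := hfrob.conj τ
    rw [← hτ] at h4
    have := hunr (fdBelow E A') hunder
    exact artin_frob_unique (fdBelow E A') h3 h4

end main

end Fermat.Agent.S56
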