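import Fermat.Agent.S56.Frob.Abelian

/-!
# S56, package FROB, file D: Galois extensions of `ℚ`

`fd_exists_frob_rat` : for a finite Galois extension `L/ℚ`, `σ ∈ Gal(L/ℚ)` and a finite set `B`
of primes there is a prime `P` of `𝓞 L`, unramified over `ℚ`, with residue characteristic `q ∉ B`,
and `a` prime to the order of `σ` such that `σ ^ a` is the Frobenius element of `P`.

Proof: `M = L^⟨σ⟩`, `L/M` is cyclic; the abelian case (file C) gives a good place `v` of `M`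
(degree one over `ℚ`) whose Frobenius generates `Gal(L/M) = ⟨σ⟩`; the Frobenius of `P | v` over
`M` is also the Frobenius over `ℚ` because `N v = q`.
-/

set_option autoImplicit false

namespace Fermat.Agent.S56

open NumberField IsDedekindDomain Fermat.Agent.S14

section group

variable {G : Type*} [Group G] [Finite G]

/-- two elements generating the same cyclic subgroup are prime-to-the-order powers of each
other -/
theorem fd_exists_pow_of_zpowers_eq {x y : G} (h : Subgroup.zpowers x = Subgroup.zpowers y) :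
    ∃ a : ℕ, a.Coprime (orderOf y) ∧ x = y ^ a := by
  have hx : x ∈ Subgroup.zpowers y := h ▸ Subgroup.mem_zpowers x
  obtain ⟨k, hk⟩ := Subgroup.mem_zpowers_iff.mp hx
  have hn : 0 < orderOf y := orderOf_pos y
  set a : ℕ := (k % (orderOf y : ℤ)).toNat with ha
  have ha' : (a : ℤ) = k % (orderOf y : ℤ) :=
    Int.toNat_of_nonneg (Int.emod_nonneg _ (by exact_mod_cast hn.ne'))
  have hxa : x = y ^ a := by
    rw [← hk, ← zpow_natCast, ha', zpow_mod_orderOf]
  refine ⟨a, ?_, hxa⟩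
  have h1 : orderOf x = orderOf y := by
    rw [← Nat.card_zpowers, ← Nat.card_zpowers, h]
  rw [hxa, orderOf_pow] at h1
  have h4 : (orderOf y).gcd a = 1 := by
    rcases Nat.div_eq_self.mp h1 with h | h
    · exact absurd h hn.ne'
    · exact h
  rw [Nat.Coprime, Nat.gcd_comm]
  exact h4

end group

section rat

variable (L : Type) [Field L] [NumberField L] [IsGalois ℚ L]

/-- **(D)** every cyclic subgroup of `Gal(L/ℚ)` is generated by a Frobenius element -/
theorem fd_exists_frob_rat (σ : L ≃ₐ[ℚ] L) (B : Finset ℕ) :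
    ∃ (P : Ideal (𝓞 L)) (_ : P.IsPrime) (a : ℕ), P ≠ ⊥ ∧
      (∀ (P' : Ideal (𝓞 L)) [P'.IsPrime], P'.under (𝓞 ℚ) = P.under (𝓞 ℚ) →
        Algebra.IsUnramifiedAt (𝓞 ℚ) P') ∧
      (Nat.card (𝓞 ℚ ⧸ P.under (𝓞 ℚ))).Prime ∧ Nat.card (𝓞 ℚ ⧸ P.under (𝓞 ℚ)) ∉ B ∧
      a.Coprime (orderOf σ) ∧ IsArithFrobAt (𝓞 ℚ) (σ ^ a) P := by
  classical
  -- the fixed field of `⟨σ⟩`
  set C : Subgroup (L ≃ₐ[ℚ] L) := Subgroup.zpowers σ with hC
  set M : IntermediateField ℚ L := IntermediateField.fixedField C with hM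
  have hfix : M.fixingSubgroup = C := IntermediateField.fixingSubgroup_fixedField C
  -- `Gal(L/M)` is commutative
  let e : ↥M.fixingSubgroup ≃* (L ≃ₐ[↥M] L) := IntermediateField.fixingSubgroupEquiv M
  have hcomm : ∀ a b : L ≃ₐ[↥M] L, a * b = b * a := by
    intro a b
    obtain ⟨⟨a', ha'⟩, rfl⟩ := e.surjective a
    obtain ⟨⟨b', hb'⟩, rfl⟩ := e.surjective b
    rw [← map_mul, ← map_mul]
    congr 1
    apply Subtype.ext
    show a' * b' = b' * a'
    rw [hfix] at ha' hb'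
    obtain ⟨i, rfl⟩ := Subgroup.mem_zpowers_iff.mp ha'
    obtain ⟨j, rfl⟩ := Subgroup.mem_zpowers_iff.mp hb'
    rw [← zpow_add, ← zpow_add, add_comm]
  -- `σ` as an element of `Gal(L/M)`
  have hσmem : σ ∈ M.fixingSubgroup := hfix ▸ Subgroup.mem_zpowers σ
  set σ' : L ≃ₐ[↥M] L := e ⟨σ, hσmem⟩ with hσ'
  -- the excluded set
  set B₀ : Finset ℕ := fdBad ℚ L B with hB₀
  set B₁ : Finset ℕ := fdBad ↥M L B₀ with hB₁
  obtain ⟨v, hvgood, hvgen⟩ := fd_exists_frobAt_zpowers ↥M L hcomm B₁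
    (fun v hv => fd_isUnramifiedIn_of_fdBad ↥M L B₀ v hv) σ'
  have hvgood₀ : IsGoodPlace ↥M B₀ v := fd_isGoodPlace_of_fdBad ↥M L B₀ v hvgood
  -- the prime of `L`
  set P : Ideal (𝓞 L) := primeAbove ↥M L v with hP
  have hPv : P.under (𝓞 ↥M) = v.asIdeal := ((primeAbove_liesOver ↥M L v).over).symm
  have hPbot : P ≠ ⊥ := primeAbove_ne_bot ↥M L v
  -- the place of `ℚ` below
  set u : HeightOneSpectrum (𝓞 ℚ) := placeBelow ℚ ↥M v with hu
  have hPu : P.under (𝓞 ℚ) = u.asIdeal := by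
    rw [← Ideal.under_under (B := 𝓞 ↥M), hPv]
    rfl
  have hpow := absNorm_eq_pow_inertiaDeg ℚ ↥M v
  obtain ⟨hnorm, -⟩ := (Nat.Prime.pow_eq_iff hvgood₀.1).mp hpow.symm
  have hugood : IsGoodPlace ℚ B₀ u := ⟨hnorm ▸ hvgood₀.1, hnorm ▸ hvgood₀.2⟩
  have hcardu : Nat.card (𝓞 ℚ ⧸ P.under (𝓞 ℚ)) = Ideal.absNorm v.asIdeal := by
    rw [hPu, ← hnorm, Ideal.absNorm_apply, Submodule.cardQuot_apply]
  have hcardv : Nat.card (𝓞 ↥M ⧸ P.under (𝓞 ↥M)) = Ideal.absNorm v.asIdeal := by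
    rw [hPv, Ideal.absNorm_apply, Submodule.cardQuot_apply]
  -- unramified over `ℚ`
  have hPlies : P.LiesOver u.asIdeal := ⟨hPu.symm⟩
  have hunr : ∀ (P' : Ideal (𝓞 L)) [P'.IsPrime], P'.under (𝓞 ℚ) = P.under (𝓞 ℚ) →
      Algebra.IsUnramifiedAt (𝓞 ℚ) P' := fun P' _ hP' =>
    fd_isUnramifiedIn_of_fdBad ℚ L B u hugood P' ⟨(hP'.trans hPu).symm⟩
  -- the Frobenius element
  set φ' : L ≃ₐ[↥M] L := frobAt ↥M L v with hφ'
  have hφ'frob : IsArithFrobAt (𝓞 ↥M) φ' P := isArithFrobAt_frobAt ↥M L v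
  set φ : L ≃ₐ[ℚ] L := (e.symm φ' : L ≃ₐ[ℚ] L) with hφ
  have hφapply : ∀ x : L, φ x = φ' x := by
    intro x
    have : φ' = e (e.symm φ') := (e.apply_symm_apply φ').symm
    rw [this]
    rfl
  have hφfrob : IsArithFrobAt (𝓞 ℚ) φ P := by
    intro x
    have h := hφ'frob x
    rw [hcardv] at h
    rw [hcardu]
    convert h using 2
    apply RingOfIntegers.ext
    exact hφapply (x : L)
  -- `φ` and `σ` generate the same subgroup
  have hgen : Subgroup.zpowers φ = Subgroup.zpowers σ := by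
    have h1 := congrArg (Subgroup.map ((Subgroup.subtype _).comp e.symm.toMonoidHom)) hvgen
    rw [MonoidHom.map_zpowers, MonoidHom.map_zpowers] at h1
    have h2 : ((Subgroup.subtype _).comp e.symm.toMonoidHom) σ' = σ := by
      show ((e.symm (e ⟨σ, hσmem⟩) : ↥M.fixingSubgroup) : L ≃ₐ[ℚ] L) = σ
      rw [e.symm_apply_apply]
    rw [h2] at h1
    exact h1
  obtain ⟨a, hacop, ha⟩ := fd_exists_pow_of_zpowers_eq hgen
  refine ⟨P, inferInstance, a, hPbot, hunr, ?_, ?_, hacop, ha ▸ hφfrob⟩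
  · rw [hcardu]
    exact hvgood₀.1
  · rw [hcardu]
    intro hmem
    exact hvgood₀.2 (fd_subset_fdBad ℚ L B hmem)

end rat

end Fermat.Agent.S56
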