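import Fermat.Agent.S14.Density

/-!
# S56, package FROB (Frobenius density), file A: the sum over the split good places

For a Galois extension `L/K` of number fields of degree `n` and a finite set `B` of excluded
residue characteristics such that every good place (`IsGoodPlace K B v`: `N v` a prime not in `B`)
is unramified in `L`:

  `n * ∑_{v good, Frob_v = 1} N(v)^(-s) = log (1/(s-1)) + O(1)` on `(1,2)`   (`fd_split_sum`).

Everything analytic comes from S14 (`primeSum_sub_log_bounded`, `primeSum_not_good_le`).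
-/

set_option autoImplicit false

namespace Fermat.Agent.S56

open NumberField IsDedekindDomain Fermat.Agent.S14

section fibre

variable (K : Type*) [Field K] [NumberField K] (L : Type*) [Field L] [NumberField L] [Algebra K L]

/-- fibrewise computation of a sum over the places of `L` -/
theorem fd_fibre_tsum_eq {g : HeightOneSpectrum (𝓞 L) → ℝ} {h : HeightOneSpectrum (𝓞 K) → ℝ}
    (hg : Summable g)
    (hfib : ∀ v, ∑' w : {w : HeightOneSpectrum (𝓞 L) // placeBelow K L w = v}, g w.1 = h v) :
    ∑' w, g w = ∑' v, h v := by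
  let e := Equiv.sigmaFiberEquiv (placeBelow K L)
  have hg' : Summable fun x : (Σ v, {w : HeightOneSpectrum (𝓞 L) // placeBelow K L w = v}) =>
      g (e x) := (Equiv.summable_iff e).mpr hg
  rw [← Equiv.tsum_eq e g, hg'.tsum_sigma]
  exact tsum_congr fun v => hfib v

/-- the excluded set `B` enlarged by the norms of the places of `K` ramified in `L` -/
noncomputable def fdBad (B : Finset ℕ) : Finset ℕ :=
  B ∪ (dens_finite_ramified K L).toFinset.image (fun v => Ideal.absNorm v.asIdeal)

theorem fd_subset_fdBad (B : Finset ℕ) : B ⊆ fdBad K L B := Finset.subset_union_left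

theorem fd_isGoodPlace_of_fdBad (B : Finset ℕ) (v : HeightOneSpectrum (𝓞 K))
    (hv : IsGoodPlace K (fdBad K L B) v) : IsGoodPlace K B v :=
  ⟨hv.1, fun hmem => hv.2 (Finset.mem_union_left _ hmem)⟩

theorem fd_isUnramifiedIn_of_fdBad (B : Finset ℕ) (v : HeightOneSpectrum (𝓞 K))
    (hv : IsGoodPlace K (fdBad K L B) v) : IsUnramifiedIn K L v := by
  by_contra hram
  apply hv.2
  refine Finset.mem_union_right _ (Finset.mem_image.mpr ⟨v, ?_, rfl⟩)
  rw [Set.Finite.mem_toFinset]
  exact hram

end fibre

section split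

variable (K L : Type) [Field K] [NumberField K] [Field L] [NumberField L] [Algebra K L]
  [IsGalois K L]

/-- a place of `L` is good iff the place below is good and splits completely -/
theorem fd_isGoodPlace_above_iff (B : Finset ℕ)
    (hB : ∀ v, IsGoodPlace K B v → IsUnramifiedIn K L v) (w : HeightOneSpectrum (𝓞 L)) :
    IsGoodPlace L B w ↔
      IsGoodPlace K B (placeBelow K L w) ∧ frobAt K L (placeBelow K L w) = 1 := by
  have hpow := absNorm_eq_pow_inertiaDeg K L w
  constructor
  · rintro ⟨hprime, hnot⟩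
    obtain ⟨h1, h2⟩ := (Nat.Prime.pow_eq_iff hprime).mp hpow.symm
    have hgood : IsGoodPlace K B (placeBelow K L w) := ⟨h1 ▸ hprime, h1 ▸ hnot⟩
    exact ⟨hgood, frobAt_eq_one_of_absNorm_eq K L _ (hB _ hgood) w rfl h1.symm⟩
  · rintro ⟨⟨hprime, hnot⟩, hfrob⟩
    have h := (absNorm_eq_of_frobAt_eq_one K L _ (hB _ ⟨hprime, hnot⟩) hfrob w rfl).1
    exact ⟨h ▸ hprime, h ▸ hnot⟩

/-- the key identity: the sum over the good places of `L` is `[L:K]` times the sum over the good
places of `K` with trivial Frobenius -/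
theorem fd_tsum_good_eq (B : Finset ℕ)
    (hB : ∀ v, IsGoodPlace K B v → IsUnramifiedIn K L v) {s : ℝ} (hs : 1 < s) :
    ∑' w, Set.indicator {w | IsGoodPlace L B w} (fun w => nvPow L w s) w =
      (Module.finrank K L : ℝ) *
        ∑' v, Set.indicator {v | IsGoodPlace K B v ∧ frobAt K L v = 1}
          (fun v => nvPow K v s) v := by
  classical
  have hsumL : Summable fun w : HeightOneSpectrum (𝓞 L) => nvPow L w s := primeSum_summable L hs
  rw [← tsum_mul_left]
  refine fd_fibre_tsum_eq K L (hsumL.indicator _) fun v => ?_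
  have : Finite {w : HeightOneSpectrum (𝓞 L) // placeBelow K L w = v} :=
    (card_placesAbove_le K L v).1
  have := Fintype.ofFinite {w : HeightOneSpectrum (𝓞 L) // placeBelow K L w = v}
  rw [tsum_fintype]
  by_cases hv : IsGoodPlace K B v ∧ frobAt K L v = 1
  · rw [Set.indicator_of_mem (show v ∈ {v | IsGoodPlace K B v ∧ frobAt K L v = 1} from hv)]
    have h2 : ∀ w : {w : HeightOneSpectrum (𝓞 L) // placeBelow K L w = v},
        Set.indicator {w | IsGoodPlace L B w} (fun w => nvPow L w s) w.1 = nvPow K v s := by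
      intro w
      have hw : IsGoodPlace L B w.1 := by
        rw [fd_isGoodPlace_above_iff K L B hB, w.2]
        exact hv
      rw [Set.indicator_of_mem (show w.1 ∈ {w | IsGoodPlace L B w} from hw)]
      have := (absNorm_eq_of_frobAt_eq_one K L v (hB v hv.1) hv.2 w.1 w.2).1
      simp only [nvPow, this]
    simp only [h2, Finset.sum_const, Finset.card_univ, nsmul_eq_mul]
    rw [← Nat.card_eq_fintype_card, card_placesAbove_of_frobAt_eq_one K L v (hB v hv.1) hv.2]
  · rw [Set.indicator_of_notMem (show v ∉ {v | IsGoodPlace K B v ∧ frobAt K L v = 1} from hv),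
      mul_zero]
    refine Finset.sum_eq_zero fun w _ => ?_
    refine Set.indicator_of_notMem ?_ _
    intro hw
    apply hv
    have := (fd_isGoodPlace_above_iff K L B hB w.1).mp hw
    rwa [w.2] at this

/-- **(A)** `[L:K] * ∑_{v good, Frob_v = 1} N(v)^(-s) = log (1/(s-1)) + O(1)` on `(1,2)`. -/
theorem fd_split_sum (B : Finset ℕ) (hB : ∀ v, IsGoodPlace K B v → IsUnramifiedIn K L v) :
    ∃ M : ℝ, ∀ s : ℝ, 1 < s → s < 2 →
      |(Module.finrank K L : ℝ) *
          (∑' v, Set.indicator {v | IsGoodPlace K B v ∧ frobAt K L v = 1}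
            (fun v => nvPow K v s) v) - Real.log (1 / (s - 1))| ≤ M := by
  obtain ⟨ML, hML⟩ := primeSum_sub_log_bounded L
  obtain ⟨M3, hM3⟩ := primeSum_not_good_le L B
  refine ⟨ML + M3, fun s hs1 hs2 => ?_⟩
  have hsumL : Summable fun w : HeightOneSpectrum (𝓞 L) => nvPow L w s := primeSum_summable L hs1
  rw [← fd_tsum_good_eq K L B hB hs1]
  set G : Set (HeightOneSpectrum (𝓞 L)) := {w | IsGoodPlace L B w} with hG
  have hsplit : (∑' w, nvPow L w s) =
      (∑' w, Set.indicator G (fun w => nvPow L w s) w) +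
        ∑' w, Set.indicator {w | ¬ IsGoodPlace L B w} (fun w => nvPow L w s) w := by
    have hcompl : {w | ¬ IsGoodPlace L B w} = Gᶜ := rfl
    rw [hcompl, ← (hsumL.indicator G).tsum_add (hsumL.indicator Gᶜ)]
    congr 1
    funext w
    exact (Set.indicator_self_add_compl_apply G (fun w => nvPow L w s) w).symm
  have h3 := hML s hs1 hs2
  have h4 := hM3 s hs1 hs2
  have h5 : 0 ≤ ∑' w, Set.indicator {w | ¬ IsGoodPlace L B w} (fun w => nvPow L w s) w :=
    tsum_nonneg fun w => Set.indicator_nonneg (fun w _ => dens_nvPow_nonneg L w s) w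
  rw [abs_le] at h3 ⊢
  constructor <;> linarith [h3.1, h3.2]

end split

end Fermat.Agent.S56
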